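/-
Abstract Deligne–Serre lifting lemma (helper for S49).

`K` is an algebraically closed field, `V` a `K`-vector space, `R` a commutative ring acting
faithfully on `V` through `ρ`, preserving a finitely generated `ℤ`-lattice `L` that spans `V`.
For every proper ideal `I` of `R` there is a common eigenvector whose eigencharacter
`χ : R → integralClosure ℤ K` sends `I` into a maximal ideal of `integralClosure ℤ K`.
-/
import Mathlib

set_option autoImplicit false

namespace Fermat.Agent.S49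

open Module

section CommonEigenvector

variable {K : Type*} [Field K] [IsAlgClosed K] {V : Type*} [AddCommGroup V] [Module K V]
  [FiniteDimensional K V]

/-- A commuting family of endomorphisms stabilising a nonzero subspace `W` of a finite
dimensional space over an algebraically closed field has a common eigenvector in `W`. -/
theorem exists_common_eigenvector_aux (𝒯 : Set (Module.End K V))
    (hcomm : ∀ S ∈ 𝒯, ∀ T ∈ 𝒯, ∀ x : V, S (T x) = T (S x)) :
    ∀ (n : ℕ) (W : Submodule K V), finrank K W = n → W ≠ ⊥ →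
      (∀ T ∈ 𝒯, ∀ w ∈ W, T w ∈ W) →
      ∃ v ∈ W, v ≠ 0 ∧ ∀ T ∈ 𝒯, ∃ μ : K, T v = μ • v := by
  intro n
  induction n using Nat.strong_induction_on with
  | _ n ih =>
    intro W hn hW hinv
    by_cases hsc : ∀ T ∈ 𝒯, ∃ μ : K, ∀ w ∈ W, T w = μ • w
    · obtain ⟨v, hvW, hv0⟩ := Submodule.exists_mem_ne_zero_of_ne_bot hW
      exact ⟨v, hvW, hv0, fun T hT => (hsc T hT).imp fun μ h => h v hvW⟩
    · push Not at hsc
      obtain ⟨T, hT, hTns⟩ := hsc
      have : Nontrivial W := Submodule.nontrivial_iff_ne_bot.mpr hW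
      obtain ⟨μ, hμ⟩ := Module.End.exists_eigenvalue (T.restrict (hinv T hT))
      obtain ⟨w₀, hw₀⟩ := hμ.exists_hasEigenvector
      have hw₀' : T (w₀ : V) = μ • (w₀ : V) := by
        have := hw₀.apply_eq_smul
        exact congrArg Subtype.val this
      have hw₀ne : (w₀ : V) ≠ 0 := fun h0 => hw₀.2 (Subtype.ext h0)
      let W' : Submodule K V := W ⊓ LinearMap.ker (T - μ • (1 : Module.End K V))
      have hmemW' : ∀ x, x ∈ W' ↔ x ∈ W ∧ T x = μ • x := by
        intro x
        simp only [W', Submodule.mem_inf, LinearMap.mem_ker, LinearMap.sub_apply,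
          LinearMap.smul_apply, Module.End.one_apply, sub_eq_zero]
      have hW'ne : W' ≠ ⊥ := by
        intro hbot
        have : (w₀ : V) ∈ W' := (hmemW' _).2 ⟨w₀.2, hw₀'⟩
        rw [hbot, Submodule.mem_bot] at this
        exact hw₀ne this
      obtain ⟨w₁, hw₁W, hw₁⟩ := hTns μ
      have hlt : W' < W := by
        refine lt_of_le_of_ne inf_le_left ?_
        intro heq
        have : w₁ ∈ W' := heq ▸ hw₁W
        exact hw₁ ((hmemW' _).1 this).2
      have hfr : finrank K W' < n := hn ▸ Submodule.finrank_lt_finrank_of_lt hlt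
      have hinv' : ∀ S ∈ 𝒯, ∀ w ∈ W', S w ∈ W' := by
        intro S hS w hw
        obtain ⟨hwW, hTw⟩ := (hmemW' w).1 hw
        refine (hmemW' _).2 ⟨hinv S hS w hwW, ?_⟩
        rw [hcomm T hT S hS, hTw, map_smul]
      obtain ⟨v, hvW', hv0, hv⟩ := ih _ hfr W' rfl hW'ne hinv'
      exact ⟨v, ((hmemW' v).1 hvW').1, hv0, hv⟩

theorem exists_common_eigenvector (𝒯 : Set (Module.End K V))
    (hcomm : ∀ S ∈ 𝒯, ∀ T ∈ 𝒯, ∀ x : V, S (T x) = T (S x))
    (W : Submodule K V) (hW : W ≠ ⊥) (hinv : ∀ T ∈ 𝒯, ∀ w ∈ W, T w ∈ W) :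
    ∃ v ∈ W, v ≠ 0 ∧ ∀ T ∈ 𝒯, ∃ μ : K, T v = μ • v :=
  exists_common_eigenvector_aux 𝒯 hcomm _ W rfl hW hinv

end CommonEigenvector

section Lifting

variable {K : Type*} [Field K] {V : Type*} [AddCommGroup V] [Module K V]
variable {R : Type*} [CommRing R]

/-- Restriction of the action to the lattice, as a ring homomorphism. -/
def latticeHom (ρ : R →+* Module.End K V) (L : Submodule ℤ V)
    (hL : ∀ r : R, ∀ x ∈ L, ρ r x ∈ L) : R →+* Module.End ℤ L where
  toFun r := ((ρ r).restrictScalars ℤ).restrict (hL r)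
  map_one' := by
    ext x
    simp
  map_mul' r s := by
    ext x
    simp only [map_mul]
    rfl
  map_zero' := by
    ext x
    simp
  map_add' r s := by
    ext x
    simp only [map_add]
    rfl

theorem latticeHom_apply (ρ : R →+* Module.End K V) (L : Submodule ℤ V)
    (hL : ∀ r : R, ∀ x ∈ L, ρ r x ∈ L) (r : R) (x : L) :
    ((latticeHom ρ L hL r x : L) : V) = ρ r (x : V) := rfl

theorem latticeHom_injective (ρ : R →+* Module.End K V) (hρ : Function.Injective ρ)
    (L : Submodule ℤ V) (hspan : Submodule.span K (L : Set V) = ⊤)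
    (hL : ∀ r : R, ∀ x ∈ L, ρ r x ∈ L) : Function.Injective (latticeHom ρ L hL) := by
  rw [injective_iff_map_eq_zero]
  intro r hr
  apply hρ
  rw [map_zero]
  refine LinearMap.ext_on hspan ?_
  intro x hx
  have := congrArg Subtype.val (LinearMap.congr_fun hr ⟨x, hx⟩)
  simpa [latticeHom_apply] using this

/-- Every element of `R` is integral over `ℤ`. -/
theorem isIntegral_of_lattice (ρ : R →+* Module.End K V) (hρ : Function.Injective ρ)
    (L : Submodule ℤ V) (hfg : L.FG) (hspan : Submodule.span K (L : Set V) = ⊤)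
    (hL : ∀ r : R, ∀ x ∈ L, ρ r x ∈ L) (r : R) : IsIntegral ℤ r := by
  have : Module.Finite ℤ L := Module.Finite.iff_fg.mpr hfg
  have h1 : IsIntegral ℤ ((latticeHom ρ L hL).toIntAlgHom r) :=
    Algebra.IsIntegral.isIntegral _
  exact (isIntegral_algHom_iff (latticeHom ρ L hL).toIntAlgHom
    (latticeHom_injective ρ hρ L hspan hL)).mp h1

theorem finiteDimensional_of_lattice (L : Submodule ℤ V) (hfg : L.FG)
    (hspan : Submodule.span K (L : Set V) = ⊤) : FiniteDimensional K V := by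
  obtain ⟨S, hS⟩ := hfg
  refine ⟨⟨S, ?_⟩⟩
  rw [eq_top_iff, ← hspan, Submodule.span_le]
  intro x hx
  have hx' : x ∈ Submodule.span ℤ (S : Set V) := hS ▸ hx
  exact (Submodule.span_le_restrictScalars ℤ K (S : Set V)) hx'

/-- **Deligne–Serre lifting lemma**, abstract form. -/
theorem exists_eigenvector_of_lattice [IsAlgClosed K] (ρ : R →+* Module.End K V) (hρ : Function.Injective ρ)
    (L : Submodule ℤ V) (hfg : L.FG) (hspan : Submodule.span K (L : Set V) = ⊤)
    (hL : ∀ r : R, ∀ x ∈ L, ρ r x ∈ L) (I : Ideal R) (hI : I ≠ ⊤) :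
    ∃ (v : V) (χ : R →+* integralClosure ℤ K) (Q : Ideal (integralClosure ℤ K)),
      v ≠ 0 ∧ (∀ r : R, ρ r v = (χ r : K) • v) ∧ Q.IsMaximal ∧ ∀ r ∈ I, χ r ∈ Q := by
  classical
  have hfd : FiniteDimensional K V := finiteDimensional_of_lattice L hfg hspan
  obtain ⟨𝔪, h𝔪max, hI𝔪⟩ := Ideal.exists_le_maximal I hI
  have h𝔪prime : 𝔪.IsPrime := h𝔪max.isPrime
  have h1 : (1 : R) ∉ 𝔪 := fun h => h𝔪max.ne_top ((Ideal.eq_top_iff_one _).mpr h)
  -- a minimal-dimensional image
  obtain ⟨t₀, ht₀, hmin⟩ : ∃ t₀ : R, t₀ ∉ 𝔪 ∧ ∀ s, s ∉ 𝔪 →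
      finrank K (LinearMap.range (ρ t₀)) ≤ finrank K (LinearMap.range (ρ s)) := by
    let P : ℕ → Prop := fun n => ∃ t, t ∉ 𝔪 ∧ finrank K (LinearMap.range (ρ t)) = n
    have hP : ∃ n, P n := ⟨_, 1, h1, rfl⟩
    obtain ⟨t₀, ht₀, h⟩ := Nat.find_spec hP
    exact ⟨t₀, ht₀, fun s hs => h ▸ Nat.find_min' hP ⟨s, hs, rfl⟩⟩
  set W : Submodule K V := LinearMap.range (ρ t₀) with hWdef
  have hcomm : ∀ r s : R, ∀ x : V, ρ r (ρ s x) = ρ s (ρ r x) := by
    intro r s x
    have h := congrArg (fun T : Module.End K V => T x) (congrArg ρ (mul_comm r s))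
    simpa [map_mul] using h
  have hWinv : ∀ r : R, ∀ w ∈ W, ρ r w ∈ W := by
    rintro r w ⟨x, rfl⟩
    exact ⟨ρ r x, (hcomm r t₀ x).symm⟩
  have hWne : W ≠ ⊥ := by
    intro hbot
    have h0 : ρ t₀ = 0 := LinearMap.range_eq_bot.mp hbot
    have : t₀ = 0 := hρ (by rw [h0, map_zero])
    exact ht₀ (this ▸ 𝔪.zero_mem)
  -- elements outside `𝔪` act injectively on `W`
  have hinj : ∀ s : R, s ∉ 𝔪 → ∀ w ∈ W, ρ s w = 0 → w = 0 := by
    intro s hs
    have hst : s * t₀ ∉ 𝔪 := fun h => (h𝔪prime.mem_or_mem h).elim hs ht₀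
    have hle : LinearMap.range (ρ (s * t₀)) ≤ W := by
      rintro _ ⟨x, rfl⟩
      rw [map_mul, Module.End.mul_apply]
      exact hWinv s _ ⟨x, rfl⟩
    have heq : LinearMap.range (ρ (s * t₀)) = W :=
      Submodule.eq_of_le_of_finrank_le hle (hmin _ hst)
    have hsurj : Function.Surjective ((ρ s).restrict (hWinv s)) := by
      rintro ⟨w, hw⟩
      rw [← heq] at hw
      obtain ⟨x, rfl⟩ := hw
      refine ⟨⟨ρ t₀ x, ⟨x, rfl⟩⟩, Subtype.ext ?_⟩
      simp [map_mul]
    have hinj' : Function.Injective ((ρ s).restrict (hWinv s)) :=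
      LinearMap.injective_iff_surjective.mpr hsurj
    intro w hw h0
    have : (⟨w, hw⟩ : W) = 0 := by
      apply hinj'
      rw [map_zero]
      exact Subtype.ext h0
    exact congrArg Subtype.val this
  -- a common eigenvector in `W`
  obtain ⟨v, hvW, hv0, hv⟩ := exists_common_eigenvector (Set.range ρ)
    (by rintro _ ⟨r, rfl⟩ _ ⟨s, rfl⟩ x; exact hcomm r s x) W hWne
    (by rintro _ ⟨r, rfl⟩ w hw; exact hWinv r w hw)
  choose χ₀ hχ₀ using fun r : R => hv (ρ r) ⟨r, rfl⟩
  have hsmul_inj : ∀ c d : K, c • v = d • v → c = d := fun c d h =>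
    smul_left_injective K hv0 h
  let χ₁ : R →+* K :=
    { toFun := χ₀
      map_one' := hsmul_inj _ _ (by rw [← hχ₀, map_one, Module.End.one_apply, one_smul])
      map_mul' := fun r s => hsmul_inj _ _ (by
        rw [← hχ₀, map_mul, Module.End.mul_apply, hχ₀ s, map_smul, hχ₀ r, smul_smul, mul_comm])
      map_zero' := hsmul_inj _ _ (by rw [← hχ₀, map_zero, LinearMap.zero_apply, zero_smul])
      map_add' := fun r s => hsmul_inj _ _ (by
        rw [← hχ₀, map_add, LinearMap.add_apply, hχ₀ r, hχ₀ s, add_smul]) }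
  have hχ₁ : ∀ r, ρ r v = χ₁ r • v := hχ₀
  have hker : ∀ r, χ₁ r = 0 → r ∈ 𝔪 := by
    intro r hr
    by_contra hrm
    exact hv0 (hinj r hrm v hvW (by rw [hχ₁, hr, zero_smul]))
  have hint : ∀ r, χ₁ r ∈ integralClosure ℤ K := fun r =>
    map_isIntegral_int χ₁ (isIntegral_of_lattice ρ hρ L hfg hspan hL r)
  let χ : R →+* integralClosure ℤ K := χ₁.codRestrict (integralClosure ℤ K) hint
  have hχ : ∀ r, ((χ r : integralClosure ℤ K) : K) = χ₁ r := fun r => rfl
  -- lying over
  let algInst : Algebra R (integralClosure ℤ K) := χ.toAlgebra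
  have hintR : Algebra.IsIntegral R (integralClosure ℤ K) := by
    refine ⟨fun z => ?_⟩
    have hz : IsIntegral ℤ z := Algebra.IsIntegral.isIntegral z
    exact hz.tower_top
  have hkerle : RingHom.ker (algebraMap R (integralClosure ℤ K)) ≤ 𝔪 := by
    intro r hr
    apply hker
    have : χ r = 0 := hr
    rw [← hχ, this]
    rfl
  obtain ⟨Q, hQmax, hQ⟩ := Ideal.exists_ideal_over_maximal_of_isIntegral 𝔪 hkerle
  refine ⟨v, χ, Q, hv0, fun r => ?_, hQmax, fun r hr => ?_⟩
  · rw [hχ]; exact hχ₁ r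
  · have : r ∈ Ideal.comap (algebraMap R (integralClosure ℤ K)) Q := hQ ▸ hI𝔪 hr
    exact this

end Lifting

end Fermat.Agent.S49
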