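/-
Formal Hecke recursion (helper for S49): an eigensystem in the sense of
`FormalHecke.IsEigensystem` is multiplicative and satisfies the prime power recursion,
i.e. it is `FormalHecke.IsRecursive`.
-/
import Mathlib
import Fermat.Prelude.Def_FormalHecke_Eigensystem

set_option autoImplicit false

namespace Fermat.Agent.S49

theorem isRecursive_of_isEigensystem {A : Type*} [CommRing A] {e b : ℕ → A}
    (h : FormalHecke.IsEigensystem e b) : FormalHecke.IsRecursive e b := by
  obtain ⟨h1, hrec⟩ := h
  refine ⟨h1, ?_, ?_⟩
  · intro m
    induction m using Nat.strong_induction_on with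
    | _ m ih =>
      intro n hmn
      rcases Nat.lt_or_ge m 2 with hm | hm
      · interval_cases m
        · have hn1 : n = 1 := by simpa using hmn
          subst hn1
          simp [h1]
        · simp [h1]
      · obtain ⟨p, hp, hpm⟩ := Nat.exists_prime_and_dvd (show m ≠ 1 by omega)
        obtain ⟨m', rfl⟩ := hpm
        have hm'pos : 0 < m' := by
          rcases Nat.eq_zero_or_pos m' with h0 | h0
          · subst h0
            simp at hm
          · exact h0
        have hm'lt : m' < p * m' := by nlinarith [hp.two_le]
        have hcop' : Nat.Coprime m' n := Nat.Coprime.coprime_mul_left hmn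
        have hcopp : Nat.Coprime p n := Nat.Coprime.coprime_mul_right hmn
        have hpn : ¬ p ∣ n := (Nat.Prime.coprime_iff_not_dvd hp).mp hcopp
        have e1 := hrec p hp (m' * n)
        have e2 := hrec p hp m'
        rw [mul_assoc]
        by_cases hpm' : p ∣ m'
        · have hdvd : p ∣ m' * n := dvd_mul_of_dvd_left hpm' n
          rw [if_pos hdvd] at e1
          rw [if_pos hpm'] at e2
          have hdiv : m' * n / p = (m' / p) * n := (Nat.div_mul_right_comm hpm' n).symm
          have hlt2 : m' / p < p * m' := lt_of_le_of_lt (Nat.div_le_self _ _) hm'lt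
          have hcop2 : Nat.Coprime (m' / p) n :=
            Nat.Coprime.coprime_dvd_left (Nat.div_dvd_of_dvd hpm') hcop'
          rw [hdiv, ih _ hlt2 _ hcop2, ih _ hm'lt _ hcop'] at e1
          linear_combination e1 - b n * e2
        · have hndvd : ¬ p ∣ m' * n := fun hd => (hp.dvd_mul.mp hd).elim hpm' hpn
          rw [if_neg hndvd] at e1
          rw [if_neg hpm'] at e2
          rw [ih _ hm'lt _ hcop'] at e1
          linear_combination e1 - b n * e2
  · intro ℓ r hℓ
    have e1 := hrec ℓ hℓ (ℓ ^ (r + 1))
    rw [if_pos (dvd_pow_self ℓ (Nat.succ_ne_zero r))] at e1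
    have h2 : ℓ * ℓ ^ (r + 1) = ℓ ^ (r + 2) := by ring
    have h3 : ℓ ^ (r + 1) / ℓ = ℓ ^ r := by
      rw [pow_succ, Nat.mul_div_cancel _ hℓ.pos]
    rw [h2, h3] at e1
    linear_combination e1

end Fermat.Agent.S49
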